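import Fermat.Agent.S24.Scott
import Fermat.Agent.S20.H54_FixedCosets
import Fermat.Agent.S20.H19_Index
import Fermat.Agent.Lib.H40_CuspCount
import Fermat.Prelude.Def_ModularCurve_GenusNumerics

/-!
# S24 assembly, group theory (WP ASM-Grp): orbit counts on `SL(2, ℤ) ⧸ Γ₀(N)` and the arithmetic

Inputs (all landed): `Fermat.Agent.S24.wp_scott` (Scott.lean), `Fermat.Agent.S20.H54.G2/G3`,
`G1_card` (S20/H19_Index.lean), `Fermat.Agent.Lib.H40CuspCount.card_orbits_T`,
Mathlib's generation of `SL(2, ℤ)` by `S` and `T`.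
`S` acts on the cosets as an involution (`S ^ 2 = -1 ∈ Γ₀(N)` is central), `S * T` has order
dividing `3` on the cosets (`(S * T) ^ 3 = -1`).

WP ASM-Grp: all statements proved (helper95); signatures as in the skeleton.
-/

set_option autoImplicit false
set_option linter.style.haveILetI false
set_option linter.unusedSectionVars false

noncomputable section

namespace Fermat.Agent.S24

open CongruenceSubgroup ModularGroup ModularCurve
open scoped MatrixGroups

/-- The number of orbits of `⟨γ⟩` on `SL(2, ℤ) ⧸ Γ₀(N)`. -/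
def orbN (N : ℕ) (γ : SL(2, ℤ)) : ℕ :=
  Nat.card (MulAction.orbitRel.Quotient (Subgroup.zpowers γ) (SL(2, ℤ) ⧸ Gamma0 N))

section Bridge

variable {G X : Type*} [Group G] [MulAction G X]

/-- The orbits of `⟨γ⟩` are the orbits of the cyclic group generated by the permutation `γ • ·`. -/
theorem h95_card_orbits_toPerm (γ : G) :
    Nat.card (MulAction.orbitRel.Quotient (Subgroup.zpowers γ) X)
      = Nat.card (MulAction.orbitRel.Quotient
          (Subgroup.zpowers (MulAction.toPermHom G X γ)) X) := by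
  refine Nat.card_congr (Quotient.congr (Equiv.refl X) fun a b => ?_)
  show (MulAction.orbitRel (Subgroup.zpowers γ) X).r a b ↔
    (MulAction.orbitRel (Subgroup.zpowers (MulAction.toPermHom G X γ)) X).r a b
  rw [MulAction.orbitRel_apply, MulAction.orbitRel_apply, MulAction.mem_orbit_iff,
    MulAction.mem_orbit_iff]
  constructor
  · rintro ⟨⟨g, hg⟩, rfl⟩
    obtain ⟨k, rfl⟩ := Subgroup.mem_zpowers_iff.1 hg
    refine ⟨⟨(MulAction.toPermHom G X γ) ^ k, ⟨k, rfl⟩⟩, ?_⟩
    show ((MulAction.toPermHom G X γ) ^ k) b = γ ^ k • b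
    rw [← map_zpow]
    rfl
  · rintro ⟨⟨g, hg⟩, rfl⟩
    obtain ⟨k, rfl⟩ := Subgroup.mem_zpowers_iff.1 hg
    refine ⟨⟨γ ^ k, ⟨k, rfl⟩⟩, ?_⟩
    show γ ^ k • b = ((MulAction.toPermHom G X γ) ^ k) b
    rw [← map_zpow]
    rfl

end Bridge

section Prime

variable {X : Type*} [Finite X]

/-- For a permutation `g` with `g ^ p = 1`, `p` prime: `p * #orbits = #X + (p - 1) * #fixed`. -/
theorem h95_card_orbits_of_pow_prime (g : Equiv.Perm X) (p : ℕ) [hp : Fact p.Prime]
    (hg : g ^ p = 1) :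
    p * Nat.card (MulAction.orbitRel.Quotient (Subgroup.zpowers g) X)
      = Nat.card X + (p - 1) * Nat.card {x : X // g x = x} := by
  classical
  letI : Fintype X := Fintype.ofFinite X
  have hfix : Nat.card {x : X // g x = x} = Fintype.card (Function.fixedPoints g) := by
    rw [← Nat.card_eq_fintype_card]
    exact Nat.card_congr (Equiv.subtypeEquivRight fun q => Iff.rfl)
  have hall : ∀ n ∈ g.cycleType, n = p := by
    intro n hn
    have h1 : n ∣ orderOf g := Equiv.Perm.dvd_of_mem_cycleType hn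
    have h2 : orderOf g ∣ p := orderOf_dvd_of_pow_eq_one hg
    have h3 : 2 ≤ n := Equiv.Perm.two_le_of_mem_cycleType hn
    rcases (Nat.dvd_prime hp.out).1 (h1.trans h2) with h | h
    · omega
    · exact h
  have hsum : g.cycleType.sum = Multiset.card g.cycleType * p := by
    rw [Multiset.eq_replicate_card.2 hall, Multiset.sum_replicate, Multiset.card_replicate,
      smul_eq_mul]
  have hle := g.sum_cycleType_le
  have hco := card_orbits_eq g
  have hfp := Equiv.Perm.card_fixedPoints g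
  have hX : Nat.card X = Fintype.card X := Nat.card_eq_fintype_card
  rw [hsum] at hle hco hfp
  rw [hfix, hX, hco, hfp]
  have hp1 : 1 ≤ p := hp.out.one_lt.le
  obtain ⟨q, rfl⟩ : ∃ q, p = q + 1 := ⟨p - 1, by omega⟩
  obtain ⟨r, hr⟩ : ∃ r, Fintype.card X = Multiset.card g.cycleType * (q + 1) + r :=
    ⟨Fintype.card X - Multiset.card g.cycleType * (q + 1), by omega⟩
  rw [hr]
  simp only [Nat.add_sub_cancel_left, Nat.add_sub_cancel]
  ring

end Prime

section Cosets

variable (N : ℕ)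

theorem h95_neg_one_smul (q : SL(2, ℤ) ⧸ Gamma0 N) : (-1 : SL(2, ℤ)) • q = q := by
  induction q using QuotientGroup.induction_on with
  | H g =>
    rw [Fermat.Agent.S20.H54.smul_mk_eq_iff]
    have h : g⁻¹ * (-1 * g) = -1 := by
      rw [neg_one_mul, mul_neg, inv_mul_cancel]
    rw [h]
    simp

theorem h95_S_sq : (S : SL(2, ℤ)) ^ 2 = -1 := by
  rw [pow_two]
  apply Subtype.ext
  rw [Matrix.SpecialLinearGroup.coe_mul, S_mul_S_eq]
  simp

theorem h95_ST_cube : (S * T : SL(2, ℤ)) ^ 3 = -1 := by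
  apply Subtype.ext
  simp only [pow_succ, pow_zero, one_mul, Matrix.SpecialLinearGroup.coe_mul, coe_S, coe_T,
    Matrix.SpecialLinearGroup.coe_neg, Matrix.SpecialLinearGroup.coe_one]
  ext i j
  fin_cases i <;> fin_cases j <;> simp [Matrix.mul_apply, Fin.sum_univ_two]

theorem h95_toPerm_pow_eq_one (γ : SL(2, ℤ)) (n : ℕ) (h : γ ^ n = -1) :
    (MulAction.toPermHom (SL(2, ℤ)) (SL(2, ℤ) ⧸ Gamma0 N) γ) ^ n = 1 := by
  rw [← map_pow, h]
  ext q
  exact h95_neg_one_smul N q

theorem h95_orbN_eq (γ : SL(2, ℤ)) :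
    orbN N γ = Nat.card (MulAction.orbitRel.Quotient
      (Subgroup.zpowers (MulAction.toPermHom (SL(2, ℤ)) (SL(2, ℤ) ⧸ Gamma0 N) γ))
      (SL(2, ℤ) ⧸ Gamma0 N)) :=
  h95_card_orbits_toPerm (G := SL(2, ℤ)) (X := SL(2, ℤ) ⧸ Gamma0 N) γ

theorem h95_toPerm_fixed (γ : SL(2, ℤ)) :
    Nat.card {q : SL(2, ℤ) ⧸ Gamma0 N //
        MulAction.toPermHom (SL(2, ℤ)) (SL(2, ℤ) ⧸ Gamma0 N) γ q = q}
      = Nat.card {q : SL(2, ℤ) ⧸ Gamma0 N // γ • q = q} := rfl

end Cosets

theorem asm_orb_one (N : ℕ) [NeZero N] : orbN N 1 = dedekindPsi N := by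
  haveI : Fact (Nat.Prime 2) := ⟨Nat.prime_two⟩
  have h := h95_card_orbits_of_pow_prime
    (MulAction.toPermHom (SL(2, ℤ)) (SL(2, ℤ) ⧸ Gamma0 N) 1) 2 (by rw [map_one, one_pow])
  rw [← h95_orbN_eq, h95_toPerm_fixed, Fermat.Agent.S20.H19.G1_card] at h
  have h2 : Nat.card {q : SL(2, ℤ) ⧸ Gamma0 N // (1 : SL(2, ℤ)) • q = q} = dedekindPsi N := by
    rw [← Fermat.Agent.S20.H19.G1_card N]
    exact Nat.card_congr (Equiv.subtypeUnivEquiv fun q => one_smul _ q)
  rw [h2] at h
  omega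

theorem asm_orb_S (N : ℕ) [NeZero N] : 2 * orbN N S = dedekindPsi N + nuTwo N := by
  haveI : Fact (Nat.Prime 2) := ⟨Nat.prime_two⟩
  rw [h95_orbN_eq,
    h95_card_orbits_of_pow_prime _ 2 (h95_toPerm_pow_eq_one N S 2 h95_S_sq),
    h95_toPerm_fixed N S, Fermat.Agent.S20.H54.G2, Fermat.Agent.S20.H19.G1_card]
  simp

theorem asm_orb_ST (N : ℕ) [NeZero N] : 3 * orbN N (S * T) = dedekindPsi N + 2 * nuThree N := by
  haveI : Fact (Nat.Prime 3) := ⟨Nat.prime_three⟩
  rw [h95_orbN_eq,
    h95_card_orbits_of_pow_prime _ 3 (h95_toPerm_pow_eq_one N (S * T) 3 h95_ST_cube),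
    h95_toPerm_fixed N (S * T), Fermat.Agent.S20.H54.G3, Fermat.Agent.S20.H19.G1_card]

theorem asm_orb_T (N : ℕ) [NeZero N] : orbN N T = cuspCount N :=
  Fermat.Agent.Lib.H40CuspCount.card_orbits_T N

/-- Scott's inequality and the parity statement for the triple `(S, T, S * T)`. -/
theorem asm_scott (N : ℕ) [NeZero N] :
    orbN N S + orbN N T + orbN N (S * T) ≤ dedekindPsi N + 2 ∧
      Even (dedekindPsi N + orbN N S + orbN N T + orbN N (S * T)) := by
  classical
  letI : Fintype (SL(2, ℤ) ⧸ Gamma0 N) := Fintype.ofFinite _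
  set φ := MulAction.toPermHom (SL(2, ℤ)) (SL(2, ℤ) ⧸ Gamma0 N) with hφ
  have htrans : ∀ x y : SL(2, ℤ) ⧸ Gamma0 N, ∃ g ∈ Subgroup.closure {φ S, φ T}, g x = y := by
    intro x y
    induction x using QuotientGroup.induction_on with
    | H a =>
      induction y using QuotientGroup.induction_on with
      | H b =>
        refine ⟨φ (b * a⁻¹), ?_, ?_⟩
        · have h1 : (b * a⁻¹) ∈ Subgroup.closure ({S, T} : Set (SL(2, ℤ))) := by
            rw [SpecialLinearGroup.SL2Z_generators]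
            exact Subgroup.mem_top _
          have h2 := Subgroup.mem_map_of_mem φ h1
          rw [MonoidHom.map_closure, Set.image_pair] at h2
          exact h2
        · show (b * a⁻¹) • (a : SL(2, ℤ) ⧸ Gamma0 N) = b
          show (((b * a⁻¹) * a : SL(2, ℤ)) : SL(2, ℤ) ⧸ Gamma0 N) = b
          rw [inv_mul_cancel_right]
  have key := wp_scott (φ S) (φ T) htrans
  rw [← map_mul, hφ, ← h95_orbN_eq, ← h95_orbN_eq, ← h95_orbN_eq, ← Nat.card_eq_fintype_card,
    Fermat.Agent.S20.H19.G1_card] at key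
  exact key

/-- The arithmetic: the Riemann–Hurwitz degree gives the genus formula. -/
theorem asm_genus_arith (N : ℕ) [NeZero N] (d : ℤ)
    (hd : d = (((dedekindPsi N : ℤ) - orbN N (S * T)) + ((dedekindPsi N : ℤ) - orbN N S))
      - dedekindPsi N - orbN N T) :
    (((d + 2).toNat / 2 : ℕ) : ℚ) = genusFormula N := by
  obtain ⟨hle, hev⟩ := asm_scott N
  have hS := asm_orb_S N
  have hST := asm_orb_ST N
  have hT := asm_orb_T N
  set a := orbN N S
  set b := orbN N T
  set c := orbN N (S * T)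
  set ψ := dedekindPsi N
  obtain ⟨m, hm⟩ : ∃ m : ℕ, ψ + 2 = a + b + c + m := ⟨ψ + 2 - (a + b + c), by omega⟩
  have hd2 : d + 2 = (m : ℤ) := by
    rw [hd]
    have : ((ψ : ℤ) + 2) = a + b + c + m := by exact_mod_cast hm
    linarith
  have hmev : Even m := by
    have h1 : Even (ψ + a + b + c + m) := by
      have : ψ + a + b + c + m = 2 * (ψ + 1) := by omega
      rw [this]
      exact even_two_mul _
    exact (Nat.even_add.mp h1).mp hev
  obtain ⟨k, hk⟩ := hmev
  rw [hd2, Int.toNat_natCast, hk, ← two_mul, Nat.mul_div_cancel_left k (by norm_num)]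
  rw [genusFormula]
  have h1 : (2 : ℚ) * a = ψ + nuTwo N := by exact_mod_cast hS
  have h2 : (3 : ℚ) * c = ψ + 2 * nuThree N := by exact_mod_cast hST
  have h3 : (b : ℚ) = cuspCount N := by exact_mod_cast hT
  have h4 : (ψ : ℚ) + 2 = a + b + c + 2 * k := by
    have : ψ + 2 = a + b + c + (k + k) := by rw [← hk]; exact hm
    have h := congrArg (Nat.cast : ℕ → ℚ) this
    push_cast at h
    linarith
  linarith

end Fermat.Agent.S24
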