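import Fermat.Agent.S24.Asm.Genus

/-!
# S24 assembly (WP ASM-One): the case `N = 1`

`F_1 = Q̄(j)`: `x = jF N` is transcendental (a Laurent series with a simple pole) and generates
`F_1` (`modularFunctionFieldFull 1 = ℚ(jq)`, so `laurentBaseChange` is `Q̄(jBar)`), hence
`[F_1 : Q̄(x)] = 1`. By FF1b (`hzeros`) applied to `x - a` and to `x⁻¹` (both generate the same
field), `x - a` has exactly one zero and `x` has exactly one pole. Then `asm_genus_eq` with
`S = ∅` gives genus `((0 - 1 - 1) + 2).toNat / 2 = 0 = genusFormula 1`.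

WP ASM-One (helper59): all statements of this file are proved.
-/

set_option autoImplicit false

noncomputable section

namespace Fermat.Agent.S24

open ModularCurve AlgebraicCurve IntermediateField

theorem asm_nuTwo_one : nuTwo 1 = 1 := by
  unfold nuTwo
  rw [Nat.card_eq_one_iff_unique]
  exact ⟨⟨fun a b => Subtype.ext (Subsingleton.elim (α := ZMod 1) _ _)⟩,
    ⟨⟨0, Subsingleton.elim (α := ZMod 1) _ _⟩⟩⟩

theorem asm_nuThree_one : nuThree 1 = 1 := by
  unfold nuThree
  rw [Nat.card_eq_one_iff_unique]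
  exact ⟨⟨fun a b => Subtype.ext (Subsingleton.elim (α := ZMod 1) _ _)⟩,
    ⟨⟨0, Subsingleton.elim (α := ZMod 1) _ _⟩⟩⟩

theorem asm_genusFormula_one : genusFormula 1 = 0 := by
  unfold genusFormula
  rw [dedekindPsi_one, asm_nuTwo_one, asm_nuThree_one, cuspCount_one]
  norm_num

theorem asm_jBar_coeff_neg_one : (jBar : LaurentSeries Kbar).coeff (-1 : ℤ) = 1 := by
  rw [jBar, coeffEmb_coeff, coeff_jq_neg_one, map_one]

theorem asm_one_transcendental (N : ℕ) [NeZero N] : Transcendental Kbar (jF N) := by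
  intro halg
  have hint : IsIntegral Kbar (jF N) := halg.isIntegral
  have hdeg1 : (minpoly Kbar (jF N)).degree = 1 :=
    IsAlgClosed.degree_eq_one_of_irreducible Kbar (minpoly.irreducible hint)
  obtain ⟨c, hc⟩ := minpoly.mem_range_of_degree_eq_one Kbar (jF N) hdeg1
  have h1 : algebraMap Kbar (LaurentSeries Kbar) c = jBar := congrArg Subtype.val hc
  have h2 := congrArg (fun f : LaurentSeries Kbar => f.coeff (-1 : ℤ)) h1
  simp only [asm_jBar_coeff_neg_one, algebraMap_laurentSeries_eq_single] at h2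
  rw [HahnSeries.coeff_single_of_ne (by norm_num)] at h2
  exact zero_ne_one h2

/-- `coeffEmb` maps `ℚ(jq)` into `Q̄(jBar)`. -/
theorem asm_coeffEmb_mem_adjoin_jBar {x : LaurentSeries ℚ} (hx : x ∈ ℚ⟮jq⟯) :
    coeffEmb Kbar x ∈ Kbar⟮jBar⟯ := by
  induction hx using IntermediateField.adjoin_induction with
  | mem y hy =>
    rw [Set.mem_singleton_iff.mp hy]
    exact mem_adjoin_simple_self Kbar jBar
  | algebraMap r =>
    have : coeffEmb Kbar (algebraMap ℚ (LaurentSeries ℚ) r)
        = algebraMap Kbar (LaurentSeries Kbar) (algebraMap ℚ Kbar r) := by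
      rw [coeffEmb, algebraMap_laurentSeries_eq_single, algebraMap_laurentSeries_eq_single,
        coeffMap_single]
    rw [this]
    exact (Kbar⟮jBar⟯).algebraMap_mem _
  | add y z _ _ hy hz => rw [map_add]; exact add_mem hy hz
  | mul y z _ _ hy hz => rw [map_mul]; exact mul_mem hy hz
  | inv y _ hy => rw [map_inv₀]; exact inv_mem hy

theorem asm_full_one : modularFunctionFieldFull 1 = ℚ⟮jq⟯ := by
  rw [modularFunctionFieldFull]
  congr 1
  ext x
  constructor
  · rintro ⟨d, hd, hdvd, rfl⟩
    have : d = 1 := Nat.dvd_one.mp hdvd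
    subst this
    rw [qExpand_one_apply]
    exact Set.mem_singleton _
  · intro hx
    rw [Set.mem_singleton_iff.mp hx]
    exact ⟨1, inferInstance, dvd_rfl, (qExpand_one_apply jq).symm⟩

theorem asm_bar_one_le : modularFunctionFieldBar 1 ≤ Kbar⟮jBar⟯ := by
  rw [modularFunctionFieldBar, laurentBaseChange, adjoin_le_iff]
  rintro _ ⟨x, hx, rfl⟩
  rw [SetLike.mem_coe, asm_full_one] at hx
  exact asm_coeffEmb_mem_adjoin_jBar hx

theorem asm_one_adjoin (N : ℕ) [NeZero N] (hN : N = 1) : Kbar⟮jF N⟯ = ⊤ := by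
  subst hN
  rw [eq_top_iff]
  intro z _
  have hz : (z : LaurentSeries Kbar) ∈ Kbar⟮jBar⟯ := asm_bar_one_le z.2
  have hmap : (Kbar⟮jF 1⟯).map (modularFunctionFieldBar 1).val = Kbar⟮jBar⟯ := by
    rw [adjoin_map, Set.image_singleton]
    rfl
  rw [← hmap] at hz
  obtain ⟨y, hy, hyz⟩ := hz
  have : y = z := Subtype.ext hyz
  rwa [← this]

/-- If `y` generates `F` over `K`, then `y` has exactly one zero. -/
theorem asm_card_zeros_eq_one {K F : Type*} [Field K] [Field F] [Algebra K F]
    (hzeros : H59.ZerosStmt K F) (y : F) (hy : Transcendental K y) (htop : K⟮y⟯ = ⊤) :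
    Nat.card {v : Place K F // 0 < v.ord y} = 1 := by
  classical
  have hfd : FiniteDimensional K⟮y⟯ F := by
    apply FiniteDimensional.of_finrank_pos
    rw [htop, IntermediateField.finrank_top]
    exact one_pos
  obtain ⟨hfin, hsum⟩ := hzeros y hy
  have h1 : Module.finrank K⟮y⟯ F = 1 := by rw [htop, IntermediateField.finrank_top]
  rw [h1, finsum_mem_eq_finite_toFinset_sum _ hfin, Nat.cast_one] at hsum
  have hcard : (hfin.toFinset.card : ℤ) ≤ 1 := by
    have : ∑ _v ∈ hfin.toFinset, (1 : ℤ) ≤ ∑ v ∈ hfin.toFinset, v.ord y := by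
      refine Finset.sum_le_sum fun v hv => ?_
      have : 0 < v.ord y := by simpa using hv
      omega
    rw [Finset.sum_const, nsmul_eq_mul, mul_one, hsum] at this
    exact_mod_cast this
  have hne : hfin.toFinset.Nonempty := by
    rw [Finset.nonempty_iff_ne_empty]
    intro h
    rw [h, Finset.sum_empty] at hsum
    exact zero_ne_one hsum
  have hc : hfin.toFinset.card = 1 := by
    have := Finset.card_pos.mpr hne
    omega
  rw [← hc]
  show Nat.card ↥{v : Place K F | 0 < v.ord y} = _
  rw [Nat.card_coe_set_eq, Set.ncard_eq_toFinset_card _ hfin]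

/-- The genus of `F_1`. -/
theorem asm_genus_one (N : ℕ) [NeZero N] (hN : N = 1)
    [HasCanonicalDivisor (K := Kbar) (F := FN N)]
    (hzeros : H59.ZerosStmt Kbar (FN N)) :
    (AlgebraicCurve.genus Kbar (FN N) : ℚ) = genusFormula N := by
  have hx := asm_one_transcendental N
  have htop := asm_one_adjoin N hN
  have hfd : FiniteDimensional Kbar⟮jF N⟯ (FN N) := by
    apply FiniteDimensional.of_finrank_pos
    rw [htop, IntermediateField.finrank_top]
    exact one_pos
  have h1 : Module.finrank Kbar⟮jF N⟯ (FN N) = 1 := by rw [htop, IntermediateField.finrank_top]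
  -- zeros of `x - a`
  have hzero : ∀ a : Kbar,
      Nat.card {v : Place Kbar (FN N) // 0 < v.ord (jF N - algebraMap Kbar (FN N) a)} = 1 := by
    intro a
    have htr : Transcendental Kbar (jF N - algebraMap Kbar (FN N) a) := by
      intro h
      apply hx
      have := h.add (isAlgebraic_algebraMap (R := Kbar) (A := FN N) a)
      rwa [sub_add_cancel] at this
    have htop' : Kbar⟮jF N - algebraMap Kbar (FN N) a⟯ = ⊤ := by
      rw [eq_top_iff, ← htop, adjoin_simple_le_iff]
      have h1 : jF N - algebraMap Kbar (FN N) a ∈ Kbar⟮jF N - algebraMap Kbar (FN N) a⟯ :=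
        mem_adjoin_simple_self _ _
      have := add_mem h1 ((Kbar⟮jF N - algebraMap Kbar (FN N) a⟯).algebraMap_mem a)
      rwa [sub_add_cancel] at this
    exact asm_card_zeros_eq_one hzeros _ htr htop'
  -- poles of `x`
  have hpole : Nat.card {v : Place Kbar (FN N) // v.ord (jF N) < 0} = 1 := by
    have htr : Transcendental Kbar (jF N)⁻¹ := fun h => hx (IsAlgebraic.inv_iff.mp h)
    have htop' : Kbar⟮(jF N)⁻¹⟯ = ⊤ := by rw [H59.adjoin_inv_eq, htop]
    have := asm_card_zeros_eq_one hzeros _ htr htop'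
    rw [← this]
    refine Nat.card_congr (Equiv.subtypeEquivRight fun v => ?_)
    rw [Place.ord_inv]
    omega
  have key := asm_genus_eq hzeros (jF N) hx ∅ (fun _ => 0) (by simp)
    (fun a _ => by rw [h1]; exact hzero a) 1 hpole
  rw [key, h1, hN, asm_genusFormula_one]
  simp

end Fermat.Agent.S24
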