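import Fermat.Agent.S24.H85_FF3Glue
import Fermat.Agent.S24.H17_FF2
import Fermat.Agent.S24.Asm.Count
import Fermat.Agent.S24.Asm.Degree

/-!
# S24 assembly: the genus from the counts (N > 1)
-/

set_option autoImplicit false

noncomputable section

namespace Fermat.Agent.S24

open CongruenceSubgroup ModularGroup ModularCurve AlgebraicCurve IntermediateField
  KaehlerDifferential
open scoped MatrixGroups

/-- The genus in terms of the Riemann–Hurwitz count. -/
theorem asm_genus_eq {K F : Type*} [Field K] [Field F] [Algebra K F] [IsAlgClosed K] [CharZero K]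
    [HasCanonicalDivisor (K := K) (F := F)]
    (hzeros : H59.ZerosStmt K F)
    (x : F) (hx : Transcendental K x) [FiniteDimensional K⟮x⟯ F]
    (S : Finset K) (r : K → ℕ)
    (hr : ∀ a ∈ S, Nat.card {v : Place K F // 0 < v.ord (x - algebraMap K F a)} = r a)
    (hS : ∀ a ∉ S, Nat.card {v : Place K F // 0 < v.ord (x - algebraMap K F a)}
      = Module.finrank K⟮x⟯ F)
    (rinf : ℕ) (hrinf : Nat.card {v : Place K F // v.ord x < 0} = rinf) :
    AlgebraicCurve.genus K F
      = ((∑ a ∈ S, ((Module.finrank K⟮x⟯ F : ℤ) - r a) - Module.finrank K⟮x⟯ F - rinf)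
          + 2).toNat / 2 := by
  have hex : ∃ ω : Ω[F⁄K], ω ≠ 0 := ⟨D K F x, ff_D_ne_zero x hx x hx⟩
  unfold AlgebraicCurve.genus
  rw [dif_pos hex]
  rw [ff_riemann_hurwitz_of_zeros hzeros x hx S r hr hS rinf hrinf hex.choose hex.choose_spec
    (canonicalDivisorOf hex.choose_spec) (fun v => canonicalDivisorOf_apply hex.choose_spec v)]

/-- The genus of `F_N` from a `ModClosure N`, for `1 < N`. -/
theorem asm_genus_of_modClosure (N : ℕ) [NeZero N]
    [HasCanonicalDivisor (K := Kbar) (F := FN N)] (hN : 1 < N) (M : ModClosure N)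
    (hzeros : H59.ZerosStmt Kbar (FN N)) :
    (AlgebraicCurve.genus Kbar (FN N) : ℚ) = genusFormula N := by
  classical
  have hx := asm_transcendental_jF M
  haveI := asm_finiteDimensional M
  have hn := asm_finrank M
  have h01728 : (0 : Kbar) ≠ 1728 := by norm_num
  have key := asm_genus_eq hzeros (jF N) hx {0, 1728}
    (fun a => if a = 0 then orbN N (S * T) else orbN N S)
    (by
      intro a ha
      rcases Finset.mem_insert.mp ha with rfl | ha
      · simpa using asm_card_zeros_zero M hN
      · rw [Finset.mem_singleton] at ha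
        subst ha
        simpa [h01728.symm] using asm_card_zeros_1728 M hN)
    (by
      intro a ha
      rw [Finset.mem_insert, Finset.mem_singleton, not_or] at ha
      rw [hn]
      exact asm_card_zeros_generic M a ha.1 ha.2)
    (orbN N T) (asm_card_poles M)
  rw [key]
  refine asm_genus_arith N _ ?_
  rw [Finset.sum_pair h01728, hn]
  simp [h01728.symm]

end Fermat.Agent.S24
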